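import Fermat.Agent.ResidualThree.CubicDescent.Interfaces

/-!
# Interfaces for the weight one realisation of an arbitrary residual representation

The statements linking the steps: a form over `ℚ(√-3)`, a datum on hyperbolic space, a form of
weight one with exact traces at the split primes.
-/

noncomputable section

open NumberField CongruenceSubgroup EisensteinWeightOne
open scoped MatrixGroups ModularForm
open Fermat.Agent.ResidualThree

namespace Fermat.Agent.WeightOneLift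

local notation "Qbar" => AlgebraicClosure ℚ
local notation "Γℚ" => (AlgebraicClosure ℚ ≃ₐ[ℚ] AlgebraicClosure ℚ)

/-- A cusp form over `K` attached to `ρ|K`, of any level at the ramified places. -/
structure IsKFormAnyLevel (ρ : Γℚ →* GL (Fin 2) (ZMod 3)) (K : IntermediateField ℚ Qbar)
    [NumberField K]
    (U : Level K) (φ : Gf K → Hyp K → ℂ) : Prop where
  automorphic : IsAutomorphic U φ
  cuspidal : IsCuspidal φ
  spectral : IsSpectralZero φ
  nonzero : ∃ x p, φ x p ≠ 0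
  bounded : ∃ C, ∀ x p, ‖φ x p‖ ≤ C
  good : ∀ v : FPlace K,
    (∀ A : ValuationSubring Qbar, LiesOverPlace A v →
      ∀ σ ∈ A.inertiaSubgroupIn ℚ, σ ∈ K.fixingSubgroup → ρ σ = 1) →
    U.J v = maxSubgroup v ∧ ∃ a : ℤ, a.natAbs ≤ 2 ∧ HasEigenvalue v (a : ℂ) φ ∧
      ∀ A : ValuationSubring Qbar, LiesOverPlace A v → ∀ σ ∈ K.fixingSubgroup,
        A.IsFrobeniusAt σ (Ideal.absNorm v.asIdeal) →
          ((a : ℤ) : ZMod 3) = (ρ σ : Matrix (Fin 2) (Fin 2) (ZMod 3)).trace ∧
          (ρ σ ^ 4 = 1 → a = quatTrace (ρ σ)) ∧ (ρ σ ^ 4 ≠ 1 → a ≠ 0)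

/-- The cubic transfer for every surjective representation. -/
def SurjectiveTransfer : Prop :=
  ∀ (ρ : Γℚ →* GL (Fin 2) (ZMod 3)), Continuous ρ → Function.Surjective ρ →
    (∀ σ : Γℚ, Matrix.GeneralLinearGroup.det (ρ σ) =
        WeierstrassCurve.modThreeCyclotomicChar σ) →
    ∀ (K : IntermediateField ℚ Qbar) [NumberField K],
      (∀ σ : Γℚ, σ ∈ K.fixingSubgroup ↔ WeierstrassCurve.modThreeCyclotomicChar σ = 1) →
      ∃ (U : Level K) (φ : Gf K → Hyp K → ℂ), IsKFormAnyLevel ρ K U φ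

/-- From a form over `K` to a form of weight one. -/
def WeightOneStep : Prop :=
  ∀ (ρ : Γℚ →* GL (Fin 2) (ZMod 3)), Continuous ρ → Function.Surjective ρ →
    (∀ σ : Γℚ, Matrix.GeneralLinearGroup.det (ρ σ) =
        WeierstrassCurve.modThreeCyclotomicChar σ) →
    ∀ (K : IntermediateField ℚ Qbar) [NumberField K],
      (∀ σ : Γℚ, σ ∈ K.fixingSubgroup ↔ WeierstrassCurve.modThreeCyclotomicChar σ = 1) →
      ∀ (U : Level K) (φ : Gf K → Hyp K → ℂ), IsKFormAnyLevel ρ K U φ →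
        ∃ (N : ℕ) (_ : NeZero N), 3 ∣ N ∧ StrongWeightOne ρ N

/-- Both steps give the form of weight one. -/
theorem exists_strongWeightOne (h₁ : SurjectiveTransfer) (h₂ : WeightOneStep)
    {ρ : Γℚ →* GL (Fin 2) (ZMod 3)} (hc : Continuous ρ) (hs : Function.Surjective ρ)
    (hd : ∀ σ : Γℚ, Matrix.GeneralLinearGroup.det (ρ σ) =
      WeierstrassCurve.modThreeCyclotomicChar σ) :
    ∃ (N : ℕ) (_ : NeZero N), 3 ∣ N ∧ StrongWeightOne ρ N := by
  obtain ⟨K, _, hK⟩ := exists_cycloField hc hd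
  obtain ⟨U, φ, hφ⟩ := h₁ ρ hc hs hd K hK
  exact h₂ ρ hc hs hd K hK U φ hφ

end Fermat.Agent.WeightOneLift
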