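import Fermat.Agent.WeightOneLift.Galois.Compare
import Fermat.Agent.WeightOneLift.WeightOne.Main

/-!
# The weight-one eigensystem of a surjective residual representation mod 3

From the transfer to `ℚ(√-3)` and the descent to weight one: the eigensystem whose eigenvalues are
the traces of the lift `Ψ ∘ ρ`.
-/

noncomputable section

open AutomorphicForm FLT.ExplicitLift EisensteinWeightOne
open scoped MatrixGroups

namespace Fermat.Agent.WeightOneLift

local notation "Γℚ" => (AlgebraicClosure ℚ ≃ₐ[ℚ] AlgebraicClosure ℚ)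

/-- The lift `Ψ ∘ ρ` of a surjective odd `ρ` into `GL₂(𝔽₃)` is realised in weight one, given the
transfer to `ℚ(√-3)` and the step to weight one. -/
theorem weightOneRealization_of (h₁ : SurjectiveTransfer) (h₂ : WeightOneStep)
    (ρ : Γℚ →* GL (Fin 2) (ZMod 3)) (hρ : Continuous ρ) (hsurj : Function.Surjective ρ)
    (hdet : ∀ σ : Γℚ, Matrix.GeneralLinearGroup.det (ρ σ) =
      WeierstrassCurve.modThreeCyclotomicChar σ)
    (Ψ : GL (Fin 2) (ZMod 3) →* GL (Fin 2) (ℤ√(-2)))
    (hΨ : ∀ g, Matrix.GeneralLinearGroup.map red (Ψ g) = g) :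
    ∃ (N : ℕ) (_ : NeZero N) (b : ℕ → ℤ√(-2)),
      FormalHecke.IsEigensystem
        (fun ℓ => if ℓ ∣ N then 0 else ((chiNegThree ℓ : ℤ) : ℤ√(-2))) b ∧
      CuspForm.IsWeightOneChiNegThreeRealized N b ∧
      ∀ p : ℕ, p.Prime → ¬ p ∣ 3 * N →
        ∀ A : ValuationSubring (AlgebraicClosure ℚ), A.LiesOverPrime p →
          ∀ σ : Γℚ, A.IsFrobeniusAt σ p →
            b p = ((Ψ (ρ σ) : GL (Fin 2) (ℤ√(-2))) : Matrix (Fin 2) (Fin 2) (ℤ√(-2))).trace := by
  obtain ⟨N₀, hN₀, h3, hdata⟩ := exists_strongWeightOne h₁ h₂ hρ hsurj hdet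
  exact exists_realized_of_strongWeightOne
    (fun R hR S hfrob => exists_trace_eq_lift hρ hsurj hdet hΨ hR S hfrob) h3 hdata

end Fermat.Agent.WeightOneLift
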